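/-
S14 helper (helper34): package A3 core, interface-free.  A Kummer generator `θ` (`θ ^ p = a ∈ K`)
such that the value of `a` is not a `p`-th power in the value group of `K` is "totally ramified":
every `K`-endomorphism `σ` of the ambient field with `σ θ = u θ` (`u` a unit, e.g. a root of
unity) preserves the valuation on `K[θ]` and acts trivially on the residue field of `K[θ]`.
Mathlib only.
-/
import Mathlib

set_option autoImplicit false

namespace Fermat.Agent.S14.H34

open Polynomial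

variable {K L : Type*} [Field K] [Field L] [Algebra K L]

/-- Every element of `K[θ]`, `θ ^ p ∈ K`, is a `K`-combination of `1, θ, …, θ ^ (p - 1)`. -/
theorem exists_sum_range_of_mem_adjoin (p : ℕ) (hp : p ≠ 0) (θ : L) (a : K)
    (hθ : θ ^ p = algebraMap K L a) {x : L} (hx : x ∈ Algebra.adjoin K {θ}) :
    ∃ c : ℕ → K, x = ∑ i ∈ Finset.range p, algebraMap K L (c i) * θ ^ i := by
  rw [Algebra.adjoin_singleton_eq_range_aeval] at hx
  obtain ⟨q, rfl⟩ := hx
  have hm : (X ^ p - C a : K[X]).Monic := monic_X_pow_sub_C a hp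
  have hdeg : (X ^ p - C a : K[X]).natDegree = p := natDegree_X_pow_sub_C
  have hm1 : (X ^ p - C a : K[X]) ≠ 1 := by
    intro h
    rw [h, natDegree_one] at hdeg
    exact hp hdeg.symm
  have hroot : aeval θ (X ^ p - C a : K[X]) = 0 := by
    simp [hθ]
  have hlt : (q %ₘ (X ^ p - C a)).natDegree < p := by
    have := natDegree_modByMonic_lt q hm hm1
    rwa [hdeg] at this
  refine ⟨fun i => (q %ₘ (X ^ p - C a)).coeff i, ?_⟩
  have h1 : aeval θ q = aeval θ (q %ₘ (X ^ p - C a)) := by
    conv_lhs => rw [← modByMonic_add_div q (X ^ p - C a)]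
    rw [map_add, map_mul, hroot, zero_mul, add_zero]
  show aeval θ q = _
  rw [h1, aeval_eq_sum_range' hlt]
  refine Finset.sum_congr rfl (fun i _ => ?_)
  rw [Algebra.smul_def]

variable {Γ₀ : Type*} [LinearOrderedCommGroupWithZero Γ₀]

/-- A finite sum whose nonzero terms have pairwise distinct valuations has the valuation of
its largest term. -/
theorem exists_valuation_sum_eq_of_distinct (v : Valuation L Γ₀) {ι : Type*} (s : Finset ι)
    (hs : s.Nonempty) (f : ι → L)
    (hf : ∀ i ∈ s, ∀ j ∈ s, i ≠ j → f i ≠ 0 → f j ≠ 0 → v (f i) ≠ v (f j)) :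
    ∃ i₀ ∈ s, v (∑ i ∈ s, f i) = v (f i₀) ∧ ∀ i ∈ s, v (f i) ≤ v (f i₀) := by
  classical
  obtain ⟨i₀, hi₀, hmax⟩ := s.exists_max_image (fun i => v (f i)) hs
  refine ⟨i₀, hi₀, ?_, hmax⟩
  by_cases h0 : v (f i₀) = 0
  · have hall : ∀ i ∈ s, f i = 0 := by
      intro i hi
      have := hmax i hi
      rw [h0] at this
      exact (Valuation.zero_iff v).mp (le_zero_iff.mp this)
    rw [Finset.sum_eq_zero hall, map_zero, h0]
  · refine Valuation.map_sum_eq_of_lt v hi₀ (fun i hi => ?_)
    obtain ⟨his, hne⟩ := Finset.mem_sdiff.mp hi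
    have hne' : i ≠ i₀ := by simpa using hne
    refine lt_of_le_of_ne (hmax i his) ?_
    by_cases hfi : f i = 0
    · rw [hfi, map_zero]; exact fun h => h0 h.symm
    · exact hf i his i₀ hi₀ hne' hfi ((Valuation.ne_zero_iff v).mp h0)

/-- If the value of `a = θ ^ p` is not a `p`-th power of a value of `K`, the monomials
`b θ ^ i`, `i < p`, `b ∈ Kˣ`, have pairwise distinct values for distinct `i`. -/
theorem valuation_monomial_ne (v : Valuation L Γ₀) {p : ℕ} (hp : p.Prime) (θ : L) (a : K)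
    (hθ : θ ^ p = algebraMap K L a)
    (hna : ∀ b : K, v (algebraMap K L b) ^ p ≠ v (algebraMap K L a))
    {i j : ℕ} (hi : i < p) (hj : j < p) (hij : i ≠ j) {b b' : K} (hb : b ≠ 0) (hb' : b' ≠ 0) :
    v (algebraMap K L b * θ ^ i) ≠ v (algebraMap K L b' * θ ^ j) := by
  -- reduce to `i < j`
  wlog hlt : i < j generalizing i j b b'
  · exact fun h => this hj hi hij.symm hb' hb (lt_of_le_of_ne (not_lt.mp hlt) hij.symm) h.symm
  intro heq
  have ha0 : a ≠ 0 := by
    rintro rfl
    have := hna 0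
    simp [hp.ne_zero] at this
  have hθ0 : θ ≠ 0 := by
    rintro rfl
    rw [zero_pow hp.ne_zero] at hθ
    exact ha0 ((map_eq_zero (algebraMap K L)).mp hθ.symm)
  have hvθ : v θ ≠ 0 := (Valuation.ne_zero_iff v).mpr hθ0
  have hvb : v (algebraMap K L b) ≠ 0 :=
    (Valuation.ne_zero_iff v).mpr ((map_ne_zero (algebraMap K L)).mpr hb)
  have hvb' : v (algebraMap K L b') ≠ 0 :=
    (Valuation.ne_zero_iff v).mpr ((map_ne_zero (algebraMap K L)).mpr hb')
  -- `v θ ^ (j - i) = v (b / b')`
  set d : ℕ := j - i with hd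
  have hd0 : 0 < d := by omega
  have hdp : d < p := by omega
  have h1 : v θ ^ d = v (algebraMap K L (b / b')) := by
    rw [map_mul, map_mul, map_pow, map_pow] at heq
    have hj' : j = i + d := by omega
    rw [hj', pow_add, ← mul_assoc] at heq
    have h2 : v (algebraMap K L b) = v (algebraMap K L b') * v θ ^ d := by
      have h3 : v (algebraMap K L b) * v θ ^ i
          = v (algebraMap K L b') * v θ ^ d * v θ ^ i := by
        rw [heq, mul_right_comm]
      exact mul_right_cancel₀ (pow_ne_zero i hvθ) h3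
    rw [map_div₀, map_div₀, h2, mul_div_assoc, mul_comm, div_mul_cancel₀ _ hvb']
  -- Bézout
  have hcop : Nat.Coprime d p :=
    Nat.coprime_comm.mp ((Nat.Prime.coprime_iff_not_dvd hp).mpr (Nat.not_dvd_of_pos_of_lt hd0 hdp))
  have hbez := Nat.gcd_eq_gcd_ab d p
  rw [hcop.gcd_eq_one] at hbez
  set m : ℤ := Nat.gcdA d p
  set n : ℤ := Nat.gcdB d p
  have h2 : v θ = v (algebraMap K L ((b / b') ^ m * a ^ n)) := by
    have h3 : v θ = v θ ^ ((d : ℤ) * m + (p : ℤ) * n) := by
      rw [← hbez]; simp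
    rw [zpow_add₀ hvθ, zpow_mul, zpow_mul, zpow_natCast, zpow_natCast, h1, ← map_pow, hθ] at h3
    rw [h3, map_mul, map_mul, map_zpow₀, map_zpow₀, map_zpow₀, map_zpow₀]
  apply hna ((b / b') ^ m * a ^ n)
  rw [← h2, ← map_pow, hθ]

/-- **Kummer generators of non-`p`-divisible value are totally ramified.** Let `θ ^ p = a ∈ K`
such that `v a` is not a `p`-th power of a value of `K`, and let `σ` be a `K`-algebra
endomorphism of `L` with `σ θ = u θ`, `v u = 1`. Then on `K[θ]`, `σ` preserves `v` and is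
trivial on the residue field: `v (σ x - x) < 1` whenever `v x ≤ 1`. -/
theorem valuation_map_eq_and_sub_lt (v : Valuation L Γ₀) {p : ℕ} (hp : p.Prime) (θ : L) (a : K)
    (hθ : θ ^ p = algebraMap K L a)
    (hna : ∀ b : K, v (algebraMap K L b) ^ p ≠ v (algebraMap K L a))
    (σ : L →ₐ[K] L) (u : L) (hu : σ θ = u * θ) (hu1 : v u = 1)
    {x : L} (hx : x ∈ Algebra.adjoin K {θ}) :
    v (σ x) = v x ∧ (v x ≤ 1 → v (σ x - x) < 1) := by
  classical
  obtain ⟨c, rfl⟩ := exists_sum_range_of_mem_adjoin p hp.ne_zero θ a hθ hx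
  set t : ℕ → L := fun i => algebraMap K L (c i) * θ ^ i with ht
  have hσ : σ (∑ i ∈ Finset.range p, t i) = ∑ i ∈ Finset.range p, t i * u ^ i := by
    rw [map_sum]
    refine Finset.sum_congr rfl (fun i _ => ?_)
    simp only [ht]
    rw [map_mul, map_pow, hu, AlgHom.commutes, mul_pow]
    ring
  have ht0 : ∀ i, t i ≠ 0 → c i ≠ 0 := by
    intro i hi hc
    apply hi
    simp [ht, hc]
  have hvt' : ∀ i, v (t i * u ^ i) = v (t i) := by
    intro i
    rw [map_mul, map_pow, hu1, one_pow, mul_one]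
  have hne : Finset.range p |>.Nonempty := ⟨0, Finset.mem_range.mpr hp.pos⟩
  have hdist : ∀ i ∈ Finset.range p, ∀ j ∈ Finset.range p, i ≠ j → t i ≠ 0 → t j ≠ 0 →
      v (t i) ≠ v (t j) := by
    intro i hi j hj hij hti htj
    exact valuation_monomial_ne v hp θ a hθ hna (Finset.mem_range.mp hi) (Finset.mem_range.mp hj)
      hij (ht0 i hti) (ht0 j htj)
  have hdist' : ∀ i ∈ Finset.range p, ∀ j ∈ Finset.range p, i ≠ j → t i * u ^ i ≠ 0 →
      t j * u ^ j ≠ 0 → v (t i * u ^ i) ≠ v (t j * u ^ j) := by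
    intro i hi j hj hij hti htj
    rw [hvt', hvt']
    exact hdist i hi j hj hij (left_ne_zero_of_mul hti) (left_ne_zero_of_mul htj)
  obtain ⟨i₀, hi₀, hv₀, hmax₀⟩ := exists_valuation_sum_eq_of_distinct v _ hne t hdist
  obtain ⟨i₁, hi₁, hv₁, hmax₁⟩ := exists_valuation_sum_eq_of_distinct v _ hne
    (fun i => t i * u ^ i) hdist'
  have heq : v (σ (∑ i ∈ Finset.range p, t i)) = v (∑ i ∈ Finset.range p, t i) := by
    rw [hσ, hv₀, hv₁]
    refine le_antisymm ?_ ?_
    · rw [hvt']; exact hmax₀ i₁ hi₁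
    · have := hmax₁ i₀ hi₀
      simp only [hvt'] at this
      rw [hvt']; exact this
  refine ⟨heq, fun hx1 => ?_⟩
  have hsub : σ (∑ i ∈ Finset.range p, t i) - ∑ i ∈ Finset.range p, t i
      = ∑ i ∈ Finset.range p, t i * (u ^ i - 1) := by
    rw [hσ, ← Finset.sum_sub_distrib]
    refine Finset.sum_congr rfl (fun i _ => ?_)
    ring
  rw [hsub]
  refine Valuation.map_sum_lt v one_ne_zero (fun i hi => ?_)
  rw [map_mul]
  have hu_le : v (u ^ i - 1) ≤ 1 := by
    refine le_trans (Valuation.map_sub v _ _) ?_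
    rw [map_pow, hu1, one_pow, map_one, max_self]
  by_cases hti : t i = 0
  · rw [hti, map_zero, zero_mul]; exact zero_lt_one
  by_cases hi0 : i = 0
  · subst hi0
    rw [pow_zero, sub_self, map_zero, mul_zero]; exact zero_lt_one
  have hle : v (t i) ≤ 1 := by
    refine le_trans (hmax₀ i hi) ?_
    rw [← hv₀]; exact hx1
  have hne1 : v (t i) ≠ 1 := by
    have := valuation_monomial_ne v hp θ a hθ hna (Finset.mem_range.mp hi) hp.pos hi0
      (ht0 i hti) (one_ne_zero (α := K))
    simpa [ht] using this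
  exact mul_lt_one_of_lt_of_le (lt_of_le_of_ne hle hne1) hu_le

end Fermat.Agent.S14.H34
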