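/-
S14 helper (helper34): a valuation subring `A` of an extension `L` of `K = Frac R` (`R` Dedekind)
lying over a height-one prime `v` of `R` induces the `v`-adic valuation on `K`:
units correspond, and `p`-th powers in the value group correspond.
Mathlib only.
-/
import Mathlib

set_option autoImplicit false

namespace Fermat.Agent.S14.H34

open IsDedekindDomain

variable {R K L : Type*} [CommRing R] [IsDedekindDomain R] [Field K] [Algebra R K]
  [IsFractionRing R K] [Field L] [Algebra K L] [Algebra R L] [IsScalarTower R K L]

/-- Elements of `R` outside `v` are units of a valuation subring lying over `v`. -/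
theorem valuation_algebraMap_eq_one_of_notMem (v : HeightOneSpectrum R) (A : ValuationSubring L)
    (hA : ∀ r : R, algebraMap R L r ∈ A)
    (hv : ∀ r ∈ v.asIdeal, A.valuation (algebraMap R L r) < 1) {d : R} (hd : d ∉ v.asIdeal) :
    A.valuation (algebraMap R L d) = 1 := by
  obtain ⟨s, t, ht, hst⟩ := v.isMaximal.exists_inv hd
  have h1 : algebraMap R L s * algebraMap R L d = 1 - algebraMap R L t := by
    rw [← map_mul, ← map_one (algebraMap R L), ← map_sub, ← hst]
    congr 1; ring
  have h2 : A.valuation (algebraMap R L s) * A.valuation (algebraMap R L d) = 1 := by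
    rw [← map_mul, h1]
    exact Valuation.map_one_sub_of_lt _ (hv t ht)
  have hs : A.valuation (algebraMap R L s) ≤ 1 :=
    (ValuationSubring.valuation_le_one_iff A _).mpr (hA s)
  have hd' : A.valuation (algebraMap R L d) ≤ 1 :=
    (ValuationSubring.valuation_le_one_iff A _).mpr (hA d)
  refine le_antisymm hd' ?_
  by_contra hlt
  push Not at hlt
  have := mul_lt_one_of_lt_of_le hlt hs
  rw [mul_comm, h2] at this
  exact lt_irrefl _ this

theorem valuation_algebraMap_le_one (v : HeightOneSpectrum R) (A : ValuationSubring L)
    (hA : ∀ r : R, algebraMap R L r ∈ A)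
    (hv : ∀ r ∈ v.asIdeal, A.valuation (algebraMap R L r) < 1) {x : K}
    (hx : v.valuation K x ≤ 1) : A.valuation (algebraMap K L x) ≤ 1 := by
  obtain ⟨n, d, h⟩ := v.exists_primeCompl_mul_eq_of_integer x hx
  have hd : A.valuation (algebraMap R L (d : R)) = 1 :=
    valuation_algebraMap_eq_one_of_notMem v A hA hv d.2
  have h1 : algebraMap K L x * algebraMap R L (d : R) = algebraMap R L n := by
    rw [IsScalarTower.algebraMap_apply R K L, IsScalarTower.algebraMap_apply R K L, ← map_mul, h]
  have h2 := congrArg A.valuation h1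
  rw [map_mul, hd, mul_one] at h2
  rw [h2]
  exact (ValuationSubring.valuation_le_one_iff A _).mpr (hA n)

theorem valuation_algebraMap_lt_one (v : HeightOneSpectrum R) (A : ValuationSubring L)
    (hA : ∀ r : R, algebraMap R L r ∈ A)
    (hv : ∀ r ∈ v.asIdeal, A.valuation (algebraMap R L r) < 1) {x : K}
    (hx : v.valuation K x < 1) : A.valuation (algebraMap K L x) < 1 := by
  obtain ⟨n, d, h⟩ := v.exists_primeCompl_mul_eq_of_integer x hx.le
  have hd : A.valuation (algebraMap R L (d : R)) = 1 :=
    valuation_algebraMap_eq_one_of_notMem v A hA hv d.2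
  have h1 : algebraMap K L x * algebraMap R L (d : R) = algebraMap R L n := by
    rw [IsScalarTower.algebraMap_apply R K L, IsScalarTower.algebraMap_apply R K L, ← map_mul, h]
  have h2 := congrArg A.valuation h1
  rw [map_mul, hd, mul_one] at h2
  rw [h2]
  apply hv
  rw [← v.valuation_lt_one_iff_mem (K := K)]
  have h3 := congrArg (v.valuation K) h
  rw [map_mul, (v.valuation_eq_one_iff_notMem (K := K)).mpr d.2, mul_one] at h3
  rw [← h3]
  exact hx

/-- A unit of `A` coming from `K` is a `v`-adic unit. -/
theorem valuation_eq_one_of_valuation_algebraMap_eq_one (v : HeightOneSpectrum R)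
    (A : ValuationSubring L) (hA : ∀ r : R, algebraMap R L r ∈ A)
    (hv : ∀ r ∈ v.asIdeal, A.valuation (algebraMap R L r) < 1) {x : K}
    (hx : A.valuation (algebraMap K L x) = 1) : v.valuation K x = 1 := by
  have hx0 : x ≠ 0 := by
    rintro rfl
    simp at hx
  rcases lt_trichotomy (v.valuation K x) 1 with h | h | h
  · have := valuation_algebraMap_lt_one v A hA hv h
    rw [hx] at this
    exact absurd this (lt_irrefl _)
  · exact h
  · have h1 : v.valuation K x⁻¹ < 1 := by
      rw [map_inv₀]
      exact inv_lt_one_of_one_lt₀ h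
    have := valuation_algebraMap_lt_one v A hA hv h1
    rw [map_inv₀, map_inv₀, hx, inv_one] at this
    exact absurd this (lt_irrefl _)

/-- If the `A`-value of `a ∈ K` is the `p`-th power of the `A`-value of some `b ∈ K`, the same
holds for the `v`-adic values. -/
theorem valuation_eq_pow_of_valuation_algebraMap_eq_pow (v : HeightOneSpectrum R)
    (A : ValuationSubring L) (hA : ∀ r : R, algebraMap R L r ∈ A)
    (hv : ∀ r ∈ v.asIdeal, A.valuation (algebraMap R L r) < 1) {p : ℕ} (hp : p ≠ 0) {a b : K}
    (h : A.valuation (algebraMap K L a) = A.valuation (algebraMap K L b) ^ p) :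
    v.valuation K a = v.valuation K b ^ p := by
  by_cases hb : b = 0
  · subst hb
    rw [map_zero, map_zero, zero_pow hp] at h
    have ha : a = 0 := by
      have := (Valuation.zero_iff _).mp h
      exact (map_eq_zero (algebraMap K L)).mp this
    rw [ha, map_zero, zero_pow hp]
  have hb' : algebraMap K L b ≠ 0 := (map_ne_zero (algebraMap K L)).mpr hb
  have h1 : A.valuation (algebraMap K L (a / b ^ p)) = 1 := by
    rw [map_div₀, map_div₀, map_pow, map_pow, h]
    exact div_self (pow_ne_zero _ ((Valuation.ne_zero_iff _).mpr hb'))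
  have h2 := valuation_eq_one_of_valuation_algebraMap_eq_one v A hA hv h1
  rw [map_div₀, map_pow] at h2
  have h3 : v.valuation K b ^ p ≠ 0 := pow_ne_zero _ ((Valuation.ne_zero_iff _).mpr hb)
  exact (div_eq_one_iff_eq h3).mp h2

end Fermat.Agent.S14.H34
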