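/-
S14 package A3 (helper34): inertia fixes the Kummer generator `θ` ⟹ `p ∣ v(θ ^ p)`.

Core (`dvd_count_of_inertia_fixes_aux`): the statement of the skeleton's A3
(`cnt_dvd_of_inertia_fixes`) with the two facts of package A0 that it uses (a prime `Q` of `ℤ̄`
over `v` whose "inertia elements" lie in `A.inertiaSubgroupIn ℚ`; lifting of inertia elements
from a finite level) as explicit hypotheses.

Proof: if `p ∤ v(a)` then the value of `a` is not a `p`-th power in the value group of `K`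
(`ValOver`), so every `K`-automorphism moving `θ` acts on `K(θ)` as an inertia element
(`KummerInertia`); lift it to `ℚ̄` — contradiction.
-/
import Mathlib
import Fermat.Prelude.Def_FLTPrelim_Ramification
import Fermat.Agent.S54.Frobenius
import Fermat.Agent.S14.H34.KummerInertia
import Fermat.Agent.S14.H34.ValOver

set_option autoImplicit false

namespace Fermat.Agent.S14.H34

open NumberField IsDedekindDomain IntermediateField ValuationSubring

local notation "Qb" => AlgebraicClosure ℚ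
local notation "G" => (AlgebraicClosure ℚ ≃ₐ[ℚ] AlgebraicClosure ℚ)

/-- An algebraic integer which is a non-unit of the localisation at `Q` lies in `Q`. -/
theorem mem_of_locValuation_lt_one {L : Type*} [Field L] [Algebra ℚ L] [Algebra.IsAlgebraic ℚ L]
    (Q : Ideal (integralClosure ℤ L)) [hQ : Q.IsPrime] (ℓ : ℕ)
    (hℓ : ℓ.Prime)
    (hQℓ : ∀ n : ℤ, algebraMap ℤ (integralClosure ℤ L) n ∈ Q → (ℓ : ℤ) ∣ n)
    (b : integralClosure ℤ L)
    (h : (Fermat.Agent.S54.locValuationSubring Q ℓ hℓ hQℓ).valuation (b : L) < 1) : b ∈ Q := by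
  by_contra hb
  have hb0 : (b : L) ≠ 0 := by
    intro h0
    apply hb
    have : b = 0 := Subtype.ext h0
    rw [this]; exact Q.zero_mem
  have hinv : (b : L)⁻¹ ∈ Fermat.Agent.S54.locValuationSubring Q ℓ hℓ hQℓ := by
    rw [Fermat.Agent.S54.mem_locValuationSubring_iff]
    exact ⟨b, 1, hb, by simp [hb0]⟩
  rw [← ValuationSubring.valuation_le_one_iff, map_inv₀] at hinv
  have hpos : 0 < (Fermat.Agent.S54.locValuationSubring Q ℓ hℓ hQℓ).valuation (b : L) :=
    zero_lt_iff.mpr ((Valuation.ne_zero_iff _).mpr hb0)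
  have := (inv_le_one₀ hpos).mp hinv
  exact absurd h (not_lt.mpr this)

/-- A valuation subring of `L` attached to a prime `Q` of the ring of algebraic integers of `L`
(over a prime number `ℓ`): it contains the algebraic integers and its non-units among them are
exactly the elements of `Q`. Stated for an arbitrary `ℤ`-algebra structure on `L` (they are all
equal), to be usable for `AlgebraicClosure ℚ`. -/
theorem exists_valuationSubring_of_prime {L : Type*} [Field L] [Algebra ℚ L]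
    [Algebra.IsAlgebraic ℚ L] [inst : Algebra ℤ L]
    (Q : Ideal (integralClosure ℤ L)) [hQ : Q.IsPrime] (ℓ : ℕ) (hℓ : ℓ.Prime)
    (hQℓ : ∀ n : ℤ, algebraMap ℤ (integralClosure ℤ L) n ∈ Q → (ℓ : ℤ) ∣ n) :
    ∃ B : ValuationSubring L, (∀ b : integralClosure ℤ L, (b : L) ∈ B) ∧
      ∀ b : integralClosure ℤ L, B.valuation (b : L) < 1 ↔ b ∈ Q := by
  obtain rfl : inst = Ring.toIntAlgebra L := Subsingleton.elim _ _
  refine ⟨Fermat.Agent.S54.locValuationSubring Q ℓ hℓ hQℓ,
    fun b => Fermat.Agent.S54.coe_mem_locSubring Q b,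
    fun b => ⟨mem_of_locValuation_lt_one Q ℓ hℓ hQℓ b, fun hb => ?_⟩⟩
  have h1 := Fermat.Agent.S54.mem_nonunits_locValuationSubring Q ℓ hℓ hQℓ (b : L) 1 b
    ((Ideal.ne_top_iff_one Q).mp hQ.ne_top) hb (by simp)
  exact (ValuationSubring.mem_nonunits_iff _).mp h1

/-- If the `v`-adic value of `a ∈ R` is a `p`-th power in the value group, then `p` divides the
multiplicity of `v` in `(a)`. -/
theorem dvd_count_of_valuation_eq_pow {R K : Type*} [CommRing R] [IsDedekindDomain R] [Field K]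
    [Algebra R K] [IsFractionRing R K] (v : HeightOneSpectrum R) {a : R} (ha : a ≠ 0) {p : ℕ}
    {b : K} (h : v.valuation K (algebraMap R K a) = v.valuation K b ^ p) :
    p ∣ (Associates.mk v.asIdeal).count (Associates.mk (Ideal.span {a})).factors := by
  rw [v.valuation_of_algebraMap, v.intValuation_if_neg ha] at h
  have h1 := congrArg WithZero.log h
  rw [WithZero.log_exp, WithZero.log_pow] at h1
  have h2 : (p : ℤ) ∣ ((Associates.mk v.asIdeal).count
      (Associates.mk (Ideal.span {a})).factors : ℤ) := by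
    refine ⟨-WithZero.log (v.valuation K b), ?_⟩
    rw [nsmul_eq_mul] at h1
    linarith
  exact_mod_cast h2

/-- An element of `ℚ̄` outside the subfield `K` is moved by some `K`-automorphism. -/
theorem exists_algEquiv_apply_ne (K : IntermediateField ℚ Qb) (θ : Qb) (h : θ ∉ K) :
    ∃ σ : Qb ≃ₐ[K] Qb, σ θ ≠ θ := by
  have hQ : Algebra.IsAlgebraic ℚ Qb := AlgebraicClosure.isAlgebraic ℚ
  have h1 : Algebra.IsAlgebraic K Qb := Algebra.IsAlgebraic.tower_top (K := ℚ) K
  have h2 : IsAlgClosure K Qb := ⟨inferInstance, h1⟩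
  have h3 : IsGalois K Qb := inferInstance
  by_contra hcon
  push Not at hcon
  have := (InfiniteGalois.mem_bot_iff_fixed (k := K) (K := Qb) θ).mpr hcon
  rw [IntermediateField.mem_bot] at this
  obtain ⟨y, hy⟩ := this
  apply h
  rw [← hy]
  exact y.2

/-- Elements of the compositum `K · ℚ(θ)` are polynomials in `θ` with coefficients in `K`. -/
theorem mem_adjoin_of_mem_sup (K : IntermediateField ℚ Qb) (θ : Qb) {x : Qb}
    (hx : x ∈ K ⊔ ℚ⟮θ⟯) : x ∈ Algebra.adjoin K {θ} := by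
  have hQ : Algebra.IsAlgebraic ℚ Qb := AlgebraicClosure.isAlgebraic ℚ
  have h1 : Algebra.IsAlgebraic K Qb := Algebra.IsAlgebraic.tower_top (K := ℚ) K
  have hle : K ⊔ ℚ⟮θ⟯ ≤ (IntermediateField.adjoin K {θ}).restrictScalars ℚ := by
    refine sup_le ?_ ?_
    · intro y hy
      rw [IntermediateField.mem_restrictScalars]
      exact (IntermediateField.adjoin K {θ}).algebraMap_mem ⟨y, hy⟩
    · rw [IntermediateField.adjoin_simple_le_iff, IntermediateField.mem_restrictScalars]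
      exact IntermediateField.mem_adjoin_simple_self K θ
  have h2 := hle hx
  rw [IntermediateField.mem_restrictScalars] at h2
  rw [← IntermediateField.adjoin_simple_toSubalgebra_of_isAlgebraic (h1.isAlgebraic θ)]
  exact h2

variable {p : ℕ} [Fact p.Prime]

/-- **A3, core.** See the file header. -/
theorem dvd_count_of_inertia_fixes_aux (K : IntermediateField ℚ Qb) [NumberField K]
    (θ : Qb) (a : 𝓞 K) (ha : a ≠ 0) (hθ : θ ^ p = ((a : K) : Qb)) (ℓ : ℕ) (hℓ : ℓ.Prime)
    (hI : ∀ A : ValuationSubring Qb, A.LiesOverPrime ℓ → ∀ σ ∈ A.inertiaSubgroupIn ℚ, σ θ = θ)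
    (v : HeightOneSpectrum (𝓞 K)) (hv : (ℓ : 𝓞 K) ∈ v.asIdeal)
    (Q : Ideal (integralClosure ℤ Qb)) [hQ : Q.IsPrime] (A : ValuationSubring Qb)
    (hAℓ : A.LiesOverPrime ℓ)
    (hQv : ∀ (x : 𝓞 K) (b : integralClosure ℤ Qb), (b : Qb) = ((x : K) : Qb) →
      (b ∈ Q ↔ x ∈ v.asIdeal))
    (hin : ∀ σ : G, (∀ b : integralClosure ℤ Qb, σ • b - b ∈ Q) → σ ∈ A.inertiaSubgroupIn ℚ)
    (hlift : ∀ (L : IntermediateField ℚ Qb) [FiniteDimensional ℚ L] (σ₀ : G),
      (∀ b : integralClosure ℤ Qb, (b : Qb) ∈ L → σ₀ • b - b ∈ Q) →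
      ∃ σ : G, (∀ x ∈ L, σ x = σ₀ x) ∧ ∀ b : integralClosure ℤ Qb, σ • b - b ∈ Q) :
    p ∣ (Associates.mk v.asIdeal).count (Associates.mk (Ideal.span {a})).factors := by
  classical
  have hp : p.Prime := Fact.out
  have hQA : Algebra.IsAlgebraic ℚ Qb := AlgebraicClosure.isAlgebraic ℚ
  -- integrality of the elements of `𝓞 K` inside `ℚ̄`
  have hint : ∀ r : 𝓞 K, IsIntegral ℤ (((r : K) : Qb)) := by
    intro r
    have h1 : IsIntegral ℤ (r : K) := RingOfIntegers.isIntegral_coe r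
    exact map_isIntegral_int (algebraMap K Qb) h1
  -- `Q` lies over `ℓ`
  have hQℓ : ∀ n : ℤ, algebraMap ℤ (integralClosure ℤ Qb) n ∈ Q → (ℓ : ℤ) ∣ n := by
    intro n hn
    have hnv : (n : 𝓞 K) ∈ v.asIdeal := by
      refine (hQv (n : 𝓞 K) (algebraMap ℤ (integralClosure ℤ Qb) n) ?_).mp hn
      simp
    by_contra hdvd
    have hcop : IsCoprime (ℓ : ℤ) n :=
      (Int.isCoprime_iff_gcd_eq_one).mpr
        ((Nat.Prime.coprime_iff_not_dvd hℓ).mpr (by
          rw [Int.natCast_dvd] at hdvd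
          exact hdvd))
    obtain ⟨s, t, hst⟩ := hcop
    have h1 : (1 : 𝓞 K) ∈ v.asIdeal := by
      have h2 : ((s : 𝓞 K) * (ℓ : 𝓞 K) + (t : 𝓞 K) * (n : 𝓞 K)) ∈ v.asIdeal :=
        v.asIdeal.add_mem (v.asIdeal.mul_mem_left _ hv) (v.asIdeal.mul_mem_left _ hnv)
      have h3 : ((s : 𝓞 K) * (ℓ : 𝓞 K) + (t : 𝓞 K) * (n : 𝓞 K)) = 1 := by
        have := congrArg (fun z : ℤ => (z : 𝓞 K)) hst
        simpa using this
      rwa [h3] at h2
    exact v.isPrime.ne_top ((Ideal.eq_top_iff_one _).mpr h1)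
  by_contra hndvd
  -- the valuation subring of `Q`
  obtain ⟨B, hBint, hBQ⟩ := exists_valuationSubring_of_prime Q ℓ hℓ hQℓ
  have hBR : ∀ r : 𝓞 K, algebraMap (𝓞 K) Qb r ∈ B := fun r => hBint ⟨_, hint r⟩
  have hBv : ∀ r ∈ v.asIdeal, B.valuation (algebraMap (𝓞 K) Qb r) < 1 := by
    intro r hr
    have hbQ : (⟨_, hint r⟩ : integralClosure ℤ Qb) ∈ Q := (hQv r ⟨_, hint r⟩ rfl).mpr hr
    exact (hBQ ⟨_, hint r⟩).mpr hbQ
  -- the value of `a` is not a `p`-th power
  have hna : ∀ b : K, B.valuation (algebraMap K Qb b) ^ p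
      ≠ B.valuation (algebraMap K Qb (a : K)) := by
    intro b hb
    apply hndvd
    have h1 := valuation_eq_pow_of_valuation_algebraMap_eq_pow (R := 𝓞 K) (K := K) (L := Qb)
      v B hBR hBv hp.ne_zero hb.symm
    exact dvd_count_of_valuation_eq_pow v ha h1
  have hθK : θ ∉ K := by
    intro hmem
    apply hna ⟨θ, hmem⟩
    rw [← map_pow]
    congr 1
  obtain ⟨σ₀, hσ₀⟩ := exists_algEquiv_apply_ne K θ hθK
  have ha0 : ((a : K) : Qb) ≠ 0 := by
    simpa using ha
  have hθ0 : θ ≠ 0 := by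
    rintro rfl
    rw [zero_pow hp.ne_zero] at hθ
    exact ha0 hθ.symm
  set u : Qb := σ₀ θ / θ with hu_def
  have hu : σ₀ θ = u * θ := by
    rw [hu_def, div_mul_cancel₀ _ hθ0]
  have hup : u ^ p = 1 := by
    rw [hu_def, div_pow, ← map_pow, hθ]
    have : σ₀ ((a : K) : Qb) = ((a : K) : Qb) := σ₀.commutes (a : K)
    rw [this, div_self ha0]
  have hu1 : B.valuation u = 1 := by
    have h1 : B.valuation u ^ p = 1 := by rw [← map_pow, hup, map_one]
    exact (pow_eq_one_iff_of_nonneg zero_le hp.ne_zero).mp h1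
  have key : ∀ x ∈ Algebra.adjoin K {θ}, B.valuation (σ₀ x) = B.valuation x ∧
      (B.valuation x ≤ 1 → B.valuation (σ₀ x - x) < 1) :=
    fun x hx => valuation_map_eq_and_sub_lt B.valuation hp θ (a : K) hθ hna
      (σ₀ : Qb →ₐ[K] Qb) u hu hu1 hx
  -- the finite level `K(θ)`
  have hθint : IsIntegral ℚ θ := hQA.isIntegral.isIntegral θ
  have : FiniteDimensional ℚ ℚ⟮θ⟯ := IntermediateField.adjoin.finiteDimensional hθint
  obtain ⟨σ, hσL, hσQ⟩ := hlift (K ⊔ ℚ⟮θ⟯) (σ₀.restrictScalars ℚ) (by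
    intro b hb
    have hx := mem_adjoin_of_mem_sup K θ hb
    have h1 := (key _ hx).2 ((ValuationSubring.valuation_le_one_iff B _).mpr (hBint b))
    exact (hBQ (σ₀.restrictScalars ℚ • b - b)).mp h1)
  have hσθ : σ θ = θ := hI A hAℓ σ (hin σ hσQ)
  apply hσ₀
  have hθL : θ ∈ K ⊔ ℚ⟮θ⟯ :=
    (le_sup_right : ℚ⟮θ⟯ ≤ K ⊔ ℚ⟮θ⟯) (IntermediateField.mem_adjoin_simple_self ℚ θ)
  have := hσL θ hθL
  rw [hσθ] at this
  exact this.symm

end Fermat.Agent.S14.H34
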