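/-
S14 helper (helper34): the decomposition-group variant of package A3's core, i.e. the first half
of the skeleton's A4 (`loc_of_decomposition_fixes`): if the decomposition groups (over `K`) at
`ℓ` fix the Kummer generator `θ`, then `p ∣ v(θ ^ p)` for `v ∣ ℓ` — with the two facts of
package A0 that are used as explicit hypotheses.
-/
import Fermat.Agent.S14.H34.Inertia

set_option autoImplicit false

namespace Fermat.Agent.S14.H34

open NumberField IsDedekindDomain IntermediateField ValuationSubring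

local notation "Qb" => AlgebraicClosure ℚ
local notation "G" => (AlgebraicClosure ℚ ≃ₐ[ℚ] AlgebraicClosure ℚ)

variable {p : ℕ} [Fact p.Prime]

/-- **Totally ramified Kummer generators.** If `p ∤ v(a)`, `θ ^ p = a`, and `Q` is a prime of
`ℤ̄` over `v`, there is a `K`-automorphism `σ₀` of `ℚ̄` moving `θ` which, on the integers of the
finite level `K(θ)`, stabilises `Q` and is trivial modulo `Q`. -/
theorem exists_algEquiv_stabilizing_of_not_dvd (K : IntermediateField ℚ Qb) [NumberField K]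
    (θ : Qb) (a : 𝓞 K) (ha : a ≠ 0) (hθ : θ ^ p = ((a : K) : Qb)) (ℓ : ℕ) (hℓ : ℓ.Prime)
    (v : HeightOneSpectrum (𝓞 K)) (hv : (ℓ : 𝓞 K) ∈ v.asIdeal)
    (Q : Ideal (integralClosure ℤ Qb)) [hQ : Q.IsPrime]
    (hQv : ∀ (x : 𝓞 K) (b : integralClosure ℤ Qb), (b : Qb) = ((x : K) : Qb) →
      (b ∈ Q ↔ x ∈ v.asIdeal))
    (hndvd : ¬ p ∣ (Associates.mk v.asIdeal).count (Associates.mk (Ideal.span {a})).factors) :
    ∃ σ₀ : Qb ≃ₐ[K] Qb, σ₀ θ ≠ θ ∧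
      ∀ b : integralClosure ℤ Qb, (b : Qb) ∈ K ⊔ ℚ⟮θ⟯ →
        ((σ₀.restrictScalars ℚ • b ∈ Q ↔ b ∈ Q) ∧ σ₀.restrictScalars ℚ • b - b ∈ Q) := by
  classical
  have hp : p.Prime := Fact.out
  have hQA : Algebra.IsAlgebraic ℚ Qb := AlgebraicClosure.isAlgebraic ℚ
  have hint : ∀ r : 𝓞 K, IsIntegral ℤ (((r : K) : Qb)) := by
    intro r
    have h1 : IsIntegral ℤ (r : K) := RingOfIntegers.isIntegral_coe r
    exact map_isIntegral_int (algebraMap K Qb) h1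
  have hQℓ : ∀ n : ℤ, algebraMap ℤ (integralClosure ℤ Qb) n ∈ Q → (ℓ : ℤ) ∣ n := by
    intro n hn
    have hnv : (n : 𝓞 K) ∈ v.asIdeal := by
      refine (hQv (n : 𝓞 K) (algebraMap ℤ (integralClosure ℤ Qb) n) ?_).mp hn
      simp
    by_contra hdvd
    have hcop : IsCoprime (ℓ : ℤ) n :=
      (Int.isCoprime_iff_gcd_eq_one).mpr
        ((Nat.Prime.coprime_iff_not_dvd hℓ).mpr (by
          rw [Int.natCast_dvd] at hdvd
          exact hdvd))
    obtain ⟨s, t, hst⟩ := hcop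
    have h1 : (1 : 𝓞 K) ∈ v.asIdeal := by
      have h2 : ((s : 𝓞 K) * (ℓ : 𝓞 K) + (t : 𝓞 K) * (n : 𝓞 K)) ∈ v.asIdeal :=
        v.asIdeal.add_mem (v.asIdeal.mul_mem_left _ hv) (v.asIdeal.mul_mem_left _ hnv)
      have h3 : ((s : 𝓞 K) * (ℓ : 𝓞 K) + (t : 𝓞 K) * (n : 𝓞 K)) = 1 := by
        have := congrArg (fun z : ℤ => (z : 𝓞 K)) hst
        simpa using this
      rwa [h3] at h2
    exact v.isPrime.ne_top ((Ideal.eq_top_iff_one _).mpr h1)
  obtain ⟨B, hBint, hBQ⟩ := exists_valuationSubring_of_prime Q ℓ hℓ hQℓ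
  have hBR : ∀ r : 𝓞 K, algebraMap (𝓞 K) Qb r ∈ B := fun r => hBint ⟨_, hint r⟩
  have hBv : ∀ r ∈ v.asIdeal, B.valuation (algebraMap (𝓞 K) Qb r) < 1 := by
    intro r hr
    have hbQ : (⟨_, hint r⟩ : integralClosure ℤ Qb) ∈ Q := (hQv r ⟨_, hint r⟩ rfl).mpr hr
    exact (hBQ ⟨_, hint r⟩).mpr hbQ
  have hna : ∀ b : K, B.valuation (algebraMap K Qb b) ^ p
      ≠ B.valuation (algebraMap K Qb (a : K)) := by
    intro b hb
    apply hndvd
    have h1 := valuation_eq_pow_of_valuation_algebraMap_eq_pow (R := 𝓞 K) (K := K) (L := Qb)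
      v B hBR hBv hp.ne_zero hb.symm
    exact dvd_count_of_valuation_eq_pow v ha h1
  have hθK : θ ∉ K := by
    intro hmem
    apply hna ⟨θ, hmem⟩
    rw [← map_pow]
    congr 1
  obtain ⟨σ₀, hσ₀⟩ := exists_algEquiv_apply_ne K θ hθK
  have ha0 : ((a : K) : Qb) ≠ 0 := by
    simpa using ha
  have hθ0 : θ ≠ 0 := by
    rintro rfl
    rw [zero_pow hp.ne_zero] at hθ
    exact ha0 hθ.symm
  set u : Qb := σ₀ θ / θ with hu_def
  have hu : σ₀ θ = u * θ := by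
    rw [hu_def, div_mul_cancel₀ _ hθ0]
  have hup : u ^ p = 1 := by
    rw [hu_def, div_pow, ← map_pow, hθ]
    have : σ₀ ((a : K) : Qb) = ((a : K) : Qb) := σ₀.commutes (a : K)
    rw [this, div_self ha0]
  have hu1 : B.valuation u = 1 := by
    have h1 : B.valuation u ^ p = 1 := by rw [← map_pow, hup, map_one]
    exact (pow_eq_one_iff_of_nonneg zero_le hp.ne_zero).mp h1
  refine ⟨σ₀, hσ₀, fun b hb => ?_⟩
  have hx := mem_adjoin_of_mem_sup K θ hb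
  have key := valuation_map_eq_and_sub_lt B.valuation hp θ (a : K) hθ hna
    (σ₀ : Qb →ₐ[K] Qb) u hu hu1 hx
  refine ⟨?_, (hBQ (σ₀.restrictScalars ℚ • b - b)).mp
    (key.2 ((ValuationSubring.valuation_le_one_iff B _).mpr (hBint b)))⟩
  rw [← hBQ, ← hBQ]
  have h1 : ((σ₀.restrictScalars ℚ • b : integralClosure ℤ Qb) : Qb) = σ₀ (b : Qb) := rfl
  rw [h1]
  exact Eq.to_iff (congrArg (· < 1) key.1)

/-- **A4, first half, core.** If every element of a decomposition group at `ℓ` which fixes `K`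
fixes the Kummer generator `θ`, then `p ∣ v(θ ^ p)` for `v ∣ ℓ` (with the A0 facts as
hypotheses: `hdec` is clause 3 of `exists_valuationSubring_over`, `hlift` is
`exists_lift_decomposition`). -/
theorem dvd_count_of_decomposition_fixes_aux (K : IntermediateField ℚ Qb) [NumberField K]
    (θ : Qb) (a : 𝓞 K) (ha : a ≠ 0) (hθ : θ ^ p = ((a : K) : Qb)) (ℓ : ℕ) (hℓ : ℓ.Prime)
    (hD : ∀ A : ValuationSubring Qb, A.LiesOverPrime ℓ →
      ∀ σ ∈ A.decompositionSubgroup ℚ, (∀ x ∈ K, σ x = x) → σ θ = θ)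
    (v : HeightOneSpectrum (𝓞 K)) (hv : (ℓ : 𝓞 K) ∈ v.asIdeal)
    (Q : Ideal (integralClosure ℤ Qb)) [hQ : Q.IsPrime] (A : ValuationSubring Qb)
    (hAℓ : A.LiesOverPrime ℓ)
    (hQv : ∀ (x : 𝓞 K) (b : integralClosure ℤ Qb), (b : Qb) = ((x : K) : Qb) →
      (b ∈ Q ↔ x ∈ v.asIdeal))
    (hdec : ∀ σ : G, (∀ b : integralClosure ℤ Qb, σ • b ∈ Q ↔ b ∈ Q) →
      σ ∈ A.decompositionSubgroup ℚ)
    (hlift : ∀ (L : IntermediateField ℚ Qb) [FiniteDimensional ℚ L] (σ₀ : G),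
      (∀ b : integralClosure ℤ Qb, (b : Qb) ∈ L → (σ₀ • b ∈ Q ↔ b ∈ Q)) →
      ∃ σ : G, (∀ x ∈ L, σ x = σ₀ x) ∧ ∀ b : integralClosure ℤ Qb, σ • b ∈ Q ↔ b ∈ Q) :
    p ∣ (Associates.mk v.asIdeal).count (Associates.mk (Ideal.span {a})).factors := by
  by_contra hndvd
  obtain ⟨σ₀, hσ₀, hσ₀Q⟩ := exists_algEquiv_stabilizing_of_not_dvd K θ a ha hθ ℓ hℓ v hv Q hQv
    hndvd
  have hQA : Algebra.IsAlgebraic ℚ Qb := AlgebraicClosure.isAlgebraic ℚ
  have hθint : IsIntegral ℚ θ := hQA.isIntegral.isIntegral θ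
  have : FiniteDimensional ℚ ℚ⟮θ⟯ := IntermediateField.adjoin.finiteDimensional hθint
  obtain ⟨σ, hσL, hσQ⟩ := hlift (K ⊔ ℚ⟮θ⟯) (σ₀.restrictScalars ℚ) (fun b hb => (hσ₀Q b hb).1)
  have hσK : ∀ x ∈ K, σ x = x := by
    intro x hx
    rw [hσL x ((le_sup_left : K ≤ K ⊔ ℚ⟮θ⟯) hx)]
    exact σ₀.commutes ⟨x, hx⟩
  have hσθ : σ θ = θ := hD A hAℓ σ (hdec σ hσQ) hσK
  apply hσ₀
  have hθL : θ ∈ K ⊔ ℚ⟮θ⟯ :=
    (le_sup_right : ℚ⟮θ⟯ ≤ K ⊔ ℚ⟮θ⟯) (IntermediateField.mem_adjoin_simple_self ℚ θ)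
  have := hσL θ hθL
  rw [hσθ] at this
  exact this.symm

end Fermat.Agent.S14.H34
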