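/-
S14 package A3 (helper34): the skeleton statement `cnt_dvd_of_inertia_fixes`, verbatim
(unramified outside `p` ⟹ valuations divisible by `p`), from the core in `H34/Inertia.lean` and
package A0 (`H4/Dictionary.lean`).  Also the first half of A4 (`dvd_cnt_of_decomposition_fixes`).
-/
import Fermat.Agent.S14.H70.Defs
import Fermat.Agent.S14.H4.Dictionary
import Fermat.Agent.S14.H34.Decomp

set_option autoImplicit false

namespace Fermat.Agent.S14.H34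

open NumberField IsDedekindDomain IntermediateField ValuationSubring Fermat.Agent.S14.H70

local notation "Qb" => AlgebraicClosure ℚ
local notation "G" => (AlgebraicClosure ℚ ≃ₐ[ℚ] AlgebraicClosure ℚ)

variable {p : ℕ} [Fact p.Prime]

/-- **A3** (unramified outside `p` ⟹ valuations divisible by `p`). -/
theorem cnt_dvd_of_inertia_fixes (K : IntermediateField ℚ Qb) [NumberField K]
    (ζ : Qb) (_hζ : IsPrimitiveRoot ζ p) (_hζK : ζ ∈ K) (θ : Qb) (a : 𝓞 K) (ha : a ≠ 0)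
    (hθ : θ ^ p = ((a : K) : Qb)) (ℓ : ℕ) (hℓ : ℓ.Prime)
    (hI : ∀ A : ValuationSubring Qb, A.LiesOverPrime ℓ → ∀ σ ∈ A.inertiaSubgroupIn ℚ, σ θ = θ)
    (v : HeightOneSpectrum (𝓞 K)) (hv : (ℓ : 𝓞 K) ∈ v.asIdeal) : p ∣ cnt v a := by
  obtain ⟨Q, hQ, A, hAℓ, hQv, -, hin⟩ :=
    Fermat.Agent.S14.H4.exists_valuationSubring_over K v ℓ hℓ hv
  exact dvd_count_of_inertia_fixes_aux K θ a ha hθ ℓ hℓ hI v hv Q A hAℓ hQv hin
    (fun L _ σ₀ h => Fermat.Agent.S14.H4.exists_lift_inertia L Q σ₀ h)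

/-- **A4, first half**: decomposition groups (over `K`) at `ℓ` fix `θ` ⟹ `p ∣ v(θ ^ p)` for
`v ∣ ℓ`. -/
theorem dvd_cnt_of_decomposition_fixes (K : IntermediateField ℚ Qb) [NumberField K]
    (θ : Qb) (a : 𝓞 K) (ha : a ≠ 0)
    (hθ : θ ^ p = ((a : K) : Qb)) (ℓ : ℕ) (hℓ : ℓ.Prime)
    (hD : ∀ A : ValuationSubring Qb, A.LiesOverPrime ℓ →
      ∀ σ ∈ A.decompositionSubgroup ℚ, (∀ x ∈ K, σ x = x) → σ θ = θ)
    (v : HeightOneSpectrum (𝓞 K)) (hv : (ℓ : 𝓞 K) ∈ v.asIdeal) : p ∣ cnt v a := by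
  obtain ⟨Q, hQ, A, hAℓ, hQv, hdec, -⟩ :=
    Fermat.Agent.S14.H4.exists_valuationSubring_over K v ℓ hℓ hv
  exact dvd_count_of_decomposition_fixes_aux K θ a ha hθ ℓ hℓ hD v hv Q A hAℓ hQv hdec
    (fun L _ σ₀ h => Fermat.Agent.S14.H4.exists_lift_decomposition L Q σ₀ h)

end Fermat.Agent.S14.H34
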